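/-
P-SS2 row 1079 SS2-C9b UNIT3 (second seat helper4): `ModelUnit3Statement M' q h₀`.

`Y₁ = H - H₁^q` is not a `q`-th power modulo the maximal ideal of `V₁₀ = vInf`, and
`X₁ = H₁ - H^q` is not a `q`-th power modulo the maximal ideal of `V₀₁ = vZero Wq`.

Proof: if `Y₁ ≡ b^q`, `b = c / d` with `c`, `d` integral and `d` primitive, then
`Ȳ₁ d̄^q = c̄^q` in `k((t))`, `k` of characteristic `q`.  Apply the Euler operator
`θ = t d/dt` (`θ (f^q) = q f^(q-1) θ f = 0`): `θ Ȳ₁ = 0`; but `θ Ȳ₁ = θ h̄₀` has the coefficient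
`-1` at `t⁻¹`.  The second statement is the `Wq`-transform of the first.
-/
import Fermat.Agent.H11.SS2.ModelDefs
import Fermat.Agent.H8.SS.Theta

set_option autoImplicit false
set_option linter.unusedSectionVars false
set_option linter.style.haveILetI false
set_option linter.unusedVariables false

noncomputable section

namespace Fermat.Agent.H4.SS2

open ModularCurve AlgebraicCurve
open Fermat.Agent.H22.KL Fermat.Agent.H8.SS Fermat.Agent.H7.SS Fermat.Agent.H82.SS
open Fermat.Agent.H7.SS2 Fermat.Agent.H11.SS2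

/-- The series `h₀ - h₀(t^q)^q` over a commutative ring `R`. -/
def unit3Y (R : Type) [CommRing R] (q : ℕ) [NeZero q] (h₀ : LaurentSeries ℤ) : LaurentSeries R :=
  coeffMap (Int.castRingHom R) h₀ - (qExpand R q (coeffMap (Int.castRingHom R) h₀)) ^ q

theorem coeffMap_unit3Y {A B : Type} [CommRing A] [CommRing B] (φ : A →+* B) (q : ℕ) [NeZero q]
    (h₀ : LaurentSeries ℤ) : coeffMap φ (unit3Y A q h₀) = unit3Y B q h₀ := by
  have e : coeffMap φ (coeffMap (Int.castRingHom A) h₀) = coeffMap (Int.castRingHom B) h₀ := by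
    rw [coeffMap_coeffMap, RingHom.ext_int (φ.comp (Int.castRingHom A)) (Int.castRingHom B)]
  unfold unit3Y
  rw [map_sub, map_pow, ModularCurve.coeffMap_qExpand, e]

section Core

variable {K₁ : Type} [Field K₁] {A₀ : Type} [CommRing A₀] [IsDomain A₀]
  [IsDiscreteValuationRing A₀] [Algebra A₀ K₁] [IsFractionRing A₀ K₁]

/-- In residue characteristic `q`, the series `h₀ - h₀(t^q)^q` is not a `q`-th power modulo
the maximal ideal of the Gauss valuation ring, if `h₀` has the coefficient `1` at `t⁻¹`. -/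
theorem unit3_core (E : IntermediateField K₁ (LaurentSeries K₁)) (q : ℕ) [NeZero q]
    (hq : q.Prime) (hqm : ((q : ℕ) : A₀) ∈ IsLocalRing.maximalIdeal A₀)
    (h₀ : LaurentSeries ℤ) (h1 : h₀.coeff (-1) = 1)
    (b : LaurentSeries K₁) (hb : InV (A₀ := A₀) E b) :
    ¬ InM (A₀ := A₀) E (unit3Y K₁ q h₀ - b ^ q) := by
  rintro ⟨a, e, -, -, hra, hre, hm⟩
  obtain ⟨c, d, -, -, hrd, hbd⟩ := hb
  have hY : unit3Y K₁ q h₀ = gIota K₁ A₀ (unit3Y A₀ q h₀) :=
    (coeffMap_unit3Y (algebraMap A₀ K₁) q h₀).symm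
  -- the identity over `A₀`
  have h2 : gIota K₁ A₀ (unit3Y A₀ q h₀ * e * d ^ q - c ^ q * e) = gIota K₁ A₀ (a * d ^ q) := by
    rw [map_sub, map_mul, map_mul, map_mul, map_mul, map_pow, map_pow, ← hm, ← hbd, ← hY]
    ring
  have h3 := congrArg (gRho A₀) (gIota_injective K₁ A₀ h2)
  rw [map_sub, map_mul, map_mul, map_mul, map_mul, map_pow, map_pow, hra, zero_mul] at h3
  have hYk : gRho A₀ (unit3Y A₀ q h₀) = unit3Y (IsLocalRing.ResidueField A₀) q h₀ :=
    coeffMap_unit3Y (IsLocalRing.residue A₀) q h₀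
  rw [hYk] at h3
  -- characteristic `q`
  have hqk0 : ((q : ℕ) : IsLocalRing.ResidueField A₀) = 0 := by
    rw [← map_natCast (IsLocalRing.residue A₀) q]
    exact (IsLocalRing.residue_eq_zero_iff _).2 hqm
  have hqk : ((q : ℕ) : LaurentSeries (IsLocalRing.ResidueField A₀)) = 0 := by
    rw [← map_natCast (HahnSeries.C : IsLocalRing.ResidueField A₀ →+* LaurentSeries _) q, hqk0,
      map_zero]
  have hpow : ∀ f : LaurentSeries (IsLocalRing.ResidueField A₀), theta (f ^ q) = 0 := by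
    intro f
    obtain ⟨n, hn⟩ : ∃ n, q = n + 1 := ⟨q - 1, (Nat.sub_add_cancel hq.one_le).symm⟩
    have := theta_pow f n
    rw [← hn, hqk, zero_mul, zero_mul] at this
    exact this
  -- cancel `e`
  have h4 : unit3Y (IsLocalRing.ResidueField A₀) q h₀ * gRho A₀ d ^ q = gRho A₀ c ^ q := by
    have : (unit3Y (IsLocalRing.ResidueField A₀) q h₀ * gRho A₀ d ^ q - gRho A₀ c ^ q)
        * gRho A₀ e = 0 := by
      rw [← h3]; ring
    rcases mul_eq_zero.1 this with h | h
    · exact sub_eq_zero.1 h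
    · exact absurd h hre
  have h5 := congrArg theta h4
  rw [theta_mul, hpow, hpow, mul_zero, add_zero] at h5
  have h6 : theta (unit3Y (IsLocalRing.ResidueField A₀) q h₀) = 0 := by
    rcases mul_eq_zero.1 h5 with h | h
    · exact h
    · exact absurd ((pow_eq_zero_iff (NeZero.ne q)).1 h) hrd
  have h7 : theta (unit3Y (IsLocalRing.ResidueField A₀) q h₀)
      = theta (coeffMap (Int.castRingHom (IsLocalRing.ResidueField A₀)) h₀) := by
    unfold unit3Y
    rw [map_sub, hpow, sub_zero]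
  rw [h7] at h6
  have h8 := congrArg (fun f => f.coeff (-1)) h6
  simp only [theta_coeff, coeffMap_coeff, h1, HahnSeries.coeff_zero] at h8
  simp at h8

end Core

/-- **UNIT3** (row SS2-C9b). -/
theorem modelUnit3 (M' q : ℕ) [NeZero M'] [NeZero q] (h₀ : LaurentSeries ℤ) :
    ModelUnit3Statement M' q h₀ := by
  intro hq hqM h1 hlow K₁ _ _ _ A₀ _ _ _ _ _ hqi Wq hWq H Hq hH hHq hW1 hW2
  have hqm : ((q : ℕ) : A₀) ∈ IsLocalRing.maximalIdeal A₀ := by
    rw [IsLocalRing.mem_maximalIdeal]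
    exact hqi.not_isUnit
  have key : ∀ b ∈ vInf K₁ A₀ (M' * q),
      (H - Hq ^ q) - b ^ q ∉ (vInf K₁ A₀ (M' * q)).nonunits := by
    intro b hb hmem
    rw [mem_nonunits_vInf_iff] at hmem
    rw [mem_vInf_iff] at hb
    refine unit3_core (A₀ := A₀) _ q hq hqm h₀ h1 _ hb ?_
    have e : ((H - Hq ^ q - b ^ q : ModelField K₁ (M' * q)) : LaurentSeries K₁)
        = unit3Y K₁ q h₀ - (b : LaurentSeries K₁) ^ q := by
      push_cast
      rw [hH, hHq]
      rfl
    rw [← e]
    exact hmem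
  refine ⟨key, fun b hb hmem => ?_⟩
  rw [mem_vZero_iff] at hb
  rw [mem_nonunits_vZero_iff, map_sub, map_sub, map_pow, map_pow, hW2, hW1] at hmem
  exact key (Wq b) hb hmem

end Fermat.Agent.H4.SS2
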