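/-
P-SS2 row 1051 (helper4): SS2-A12 VAL3-ABS, part 1 - utilities on valuation subrings and the
two Dedekind-Kummer statements along an embedding `φ : F →+* E`.

NOTE: `Fermat.Agent.H11.SS2.VUnit V z` is `z ∈ V ∧ z⁻¹ ∈ V`, which also holds for `z = 0`;
the lemmas below keep track of `z ≠ 0` where it matters.
-/
import Fermat.Agent.H11.SS2.Val3Defs

set_option autoImplicit false
set_option linter.unusedSectionVars false
set_option linter.style.haveILetI false

noncomputable section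

namespace Fermat.Agent.H4.SS2

open Polynomial Fermat.Agent.H11.SS2

section Util

variable {L : Type} [Field L] (V : ValuationSubring L)

theorem zero_mem_nonunits : (0 : L) ∈ V.nonunits := V.nonunits.zero_mem

theorem notMem_nonunits_of_vunit {z : L} (hz : VUnit V z) (hz0 : z ≠ 0) : z ∉ V.nonunits := by
  rw [ValuationSubring.mem_nonunits_iff_or]
  rintro (h | h)
  · exact hz0 h
  · exact h hz.2

theorem vunit_of_notMem_nonunits {z : L} (hz : z ∈ V) (hz' : z ∉ V.nonunits) : VUnit V z := by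
  refine ⟨hz, ?_⟩
  by_contra h
  exact hz' ((ValuationSubring.mem_nonunits_iff_or V).2 (Or.inr h))

theorem ne_zero_of_notMem_nonunits {z : L} (hz' : z ∉ V.nonunits) : z ≠ 0 := by
  rintro rfl
  exact hz' (zero_mem_nonunits V)

theorem nonunits_mem {z : L} (hz : z ∈ V.nonunits) : z ∈ V := ValuationSubring.nonunits_le hz

theorem nonunits_mul_mem {a b : L} (ha : a ∈ V.nonunits) (hb : b ∈ V) : a * b ∈ V.nonunits := by
  rw [ValuationSubring.mem_nonunits_iff] at ha ⊢
  rw [map_mul]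
  have hb' : V.valuation b ≤ 1 := (V.valuation_le_one_iff b).2 hb
  calc V.valuation a * V.valuation b ≤ V.valuation a * 1 := by gcongr
    _ = V.valuation a := mul_one _
    _ < 1 := ha

theorem mem_nonunits_mul_comm {a b : L} (ha : a ∈ V.nonunits) (hb : b ∈ V) :
    b * a ∈ V.nonunits := by
  rw [mul_comm]
  exact nonunits_mul_mem V ha hb

/-- unit minus non-unit is a unit. -/
theorem vunit_sub_nonunit {u n : L} (hu : u ∈ V) (hu' : u ∉ V.nonunits) (hn : n ∈ V.nonunits) :
    u - n ∈ V ∧ u - n ∉ V.nonunits := by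
  refine ⟨V.sub_mem hu (nonunits_mem V hn), fun h => hu' ?_⟩
  have := V.nonunits.add_mem h hn
  rwa [sub_add_cancel] at this

theorem vunit_add_nonunit {u n : L} (hu : u ∈ V) (hu' : u ∉ V.nonunits) (hn : n ∈ V.nonunits) :
    u + n ∈ V ∧ u + n ∉ V.nonunits := by
  have := vunit_sub_nonunit V hu hu' (V.nonunits.neg_mem hn)
  rwa [sub_neg_eq_add] at this

/-- A product with a unit is a uniformiser again. -/
theorem dkUnif_mul_unit {t u : L} (ht : DKUnif V t) (hu : u ∈ V) (hu' : u ∉ V.nonunits) :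
    DKUnif V (t * u) := by
  obtain ⟨ht0, htn, htd⟩ := ht
  have hu0 : u ≠ 0 := ne_zero_of_notMem_nonunits V hu'
  have huinv : u⁻¹ ∈ V := (vunit_of_notMem_nonunits V hu hu').2
  refine ⟨mul_ne_zero ht0 hu0, nonunits_mul_mem V htn hu, fun y hy => ?_⟩
  have : y / (t * u) = y / t * u⁻¹ := by
    field_simp
  rw [this]
  exact V.mul_mem _ _ (htd y hy) huinv

section Comap

variable {K : Type} [Field K] (φ : K →+* L)

theorem mem_nonunits_comap {x : K} : x ∈ (V.comap φ).nonunits ↔ φ x ∈ V.nonunits := by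
  rw [ValuationSubring.mem_nonunits_iff_or, ValuationSubring.mem_nonunits_iff_or,
    ValuationSubring.mem_comap, map_inv₀, map_eq_zero]

theorem vunit_comap {x : K} : VUnit (V.comap φ) x ↔ VUnit V (φ x) := by
  unfold VUnit
  rw [ValuationSubring.mem_comap, ValuationSubring.mem_comap, map_inv₀]

end Comap

/-- In a discrete valuation subring every element becomes integral after multiplication by a
power of a uniformiser. -/
theorem exists_pow_mul_mem (hpir : IsPrincipalIdealRing V) {π : L} (hπ : DKUnif V π) (x : L) :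
    ∃ k : ℕ, π ^ k * x ∈ V := by
  obtain ⟨hπ0, hπn, hπd⟩ := hπ
  by_cases hx : x ∈ V
  · exact ⟨0, by simpa using hx⟩
  have hx0 : x ≠ 0 := by
    rintro rfl
    exact hx V.zero_mem
  have hxinv : x⁻¹ ∈ V := (V.mem_or_inv_mem x).resolve_left hx
  let ϖ : V := ⟨π, nonunits_mem V hπn⟩
  have hϖ0 : ϖ ≠ 0 := fun h => hπ0 (congrArg Subtype.val h)
  have hmax : IsLocalRing.maximalIdeal V = Ideal.span {ϖ} := by
    apply le_antisymm
    · intro y hy
      rw [Ideal.mem_span_singleton']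
      have hy' : (y : L) ∈ V.nonunits :=
        ValuationSubring.mem_nonunits_iff_exists_mem_maximalIdeal.2 ⟨y.2, hy⟩
      refine ⟨⟨(y : L) / π, hπd _ hy'⟩, ?_⟩
      apply Subtype.ext
      show (y : L) / π * π = y
      field_simp
    · rw [Ideal.span_singleton_le_iff_mem]
      obtain ⟨h1, h2⟩ := ValuationSubring.mem_nonunits_iff_exists_mem_maximalIdeal.1 hπn
      exact h2
  haveI : IsDiscreteValuationRing V :=
    { toIsPrincipalIdealRing := hpir
      toIsLocalRing := inferInstance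
      not_a_field' := by
        rw [hmax]
        intro h
        rw [Ideal.span_singleton_eq_bot] at h
        exact hϖ0 h }
  have hirr : Irreducible ϖ := (IsDiscreteValuationRing.irreducible_iff_uniformizer ϖ).2 hmax
  have hy0 : (⟨x⁻¹, hxinv⟩ : V) ≠ 0 := fun h => inv_ne_zero hx0 (congrArg Subtype.val h)
  obtain ⟨n, u, hu⟩ := IsDiscreteValuationRing.eq_unit_mul_pow_irreducible hy0 hirr
  refine ⟨n, ?_⟩
  have h1 : x⁻¹ = (u : V) * π ^ n := by
    have := congrArg Subtype.val hu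
    simpa using this
  have hu0 : ((u : V) : L) ≠ 0 := by
    intro h
    rw [h, zero_mul] at h1
    exact inv_ne_zero hx0 h1
  have h2 : π ^ n * x = ((u⁻¹ : Vˣ) : V) := by
    have h3 : ((u⁻¹ : Vˣ) : V) * (u : V) = 1 := by
      rw [← Units.val_mul, inv_mul_cancel, Units.val_one]
    have h4 : (((u⁻¹ : Vˣ) : V) : L) * ((u : V) : L) = 1 :=
      congrArg Subtype.val h3
    have h5 : x = (((u : V) : L) * π ^ n)⁻¹ := by rw [← h1, inv_inv]
    rw [h5]
    field_simp
    rw [mul_comm]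
    exact h4.symm
  rw [h2]
  exact Subtype.mem _

end Util

section Along

variable {F E : Type} [Field F] [Field E]

/-- The conclusion of `DKInsepStatement` along an embedding `φ`. -/
def InsepOut (φ : F →+* E) (O : ValuationSubring F) (π : F) (p : ℕ) (z : E)
    (W : ValuationSubring E) : Prop :=
  IsPrincipalIdealRing W ∧ W.comap φ = O ∧
    (∀ V : ValuationSubring E, V.comap φ = O → V = W) ∧
    DKUnif W (φ π) ∧
    (∀ c : Fin p → F, (∀ j, c j ∈ O) →
      (∑ j, φ (c j) * z ^ (j : ℕ)) ∈ W.nonunits → ∀ j, c j ∈ O.nonunits) ∧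
    (∀ w ∈ W, ∃ c : Fin p → F, (∀ j, c j ∈ O) ∧ w = ∑ j, φ (c j) * z ^ (j : ℕ)) ∧
    (∀ w ∈ W, ∃ b ∈ O, w ^ p - φ b ∈ W.nonunits)

/-- The conclusion of `DKSplitStatement` along an embedding `φ`. -/
def SplitOut (φ : F →+* E) (O : ValuationSubring F) (π : F) (n : ℕ) (z : E) (c : F)
    (W₁ W₂ : ValuationSubring E) : Prop :=
  W₁ ≠ W₂ ∧ IsPrincipalIdealRing W₁ ∧ IsPrincipalIdealRing W₂ ∧
    W₁.comap φ = O ∧ W₂.comap φ = O ∧
    (∀ V : ValuationSubring E, V.comap φ = O → V = W₁ ∨ V = W₂) ∧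
    DKUnif W₁ z ∧ φ π / z ^ (n - 1) ∈ W₁ ∧ z ^ (n - 1) / φ π ∈ W₁ ∧
    z + φ c ∈ W₂.nonunits ∧ DKUnif W₂ (φ π) ∧
    ResOneAlong φ O W₁ ∧ ResOneAlong φ O W₂

/-- `DKInsepStatement` along an embedding. -/
theorem dkInsep_along (h2 : DKInsepStatement) (φ : F →+* E)
    (hfd : @FiniteDimensional F E _ _ (@Algebra.toModule F E _ _ φ.toAlgebra))
    (O : ValuationSubring F) (π : F) (hO : IsPrincipalIdealRing O) (hπ : DKUnif O π)
    (p : ℕ) (hp : p.Prime) (hpO : (p : F) ∈ O.nonunits)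
    (hrank : @Module.finrank F E _ _ (@Algebra.toModule F E _ _ φ.toAlgebra) = p)
    (P : F[X]) (z : E) (a : F) (hP : P.Monic) (hdeg : P.natDegree = p)
    (hcoef : ∀ i, P.coeff i ∈ O) (hz : (P.map φ).eval z = 0) (ha : a ∈ O)
    (hred : ∀ i, (P - (X ^ p - C a)).coeff i ∈ O.nonunits)
    (hna : ∀ b ∈ O, a - b ^ p ∉ O.nonunits) :
    ∃ W : ValuationSubring E, InsepOut φ O π p z W := by
  letI : Algebra F E := φ.toAlgebra
  have hz' : aeval z P = 0 := by
    rw [aeval_def, ← eval_map]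
    exact hz
  exact @h2 F E _ _ φ.toAlgebra hfd O π hO hπ p hp hpO hrank P z a hP hdeg hcoef hz' ha hred hna

/-- `DKSplitStatement` along an embedding. -/
theorem dkSplit_along (h1 : DKSplitStatement) (φ : F →+* E)
    (hfd : @FiniteDimensional F E _ _ (@Algebra.toModule F E _ _ φ.toAlgebra))
    (O : ValuationSubring F) (π : F) (hO : IsPrincipalIdealRing O) (hπ : DKUnif O π)
    (n : ℕ) (hn : 2 ≤ n)
    (hrank : @Module.finrank F E _ _ (@Algebra.toModule F E _ _ φ.toAlgebra) = n)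
    (P : F[X]) (z : E) (c : F) (hP : P.Monic) (hdeg : P.natDegree = n)
    (hcoef : ∀ i, P.coeff i ∈ O) (hz : (P.map φ).eval z = 0)
    (hgen : ∀ w : E, ∃ Q : F[X], (Q.map φ).eval z = w)
    (hc : c ∈ O) (hc' : c ∉ O.nonunits)
    (hred : ∀ i, (P - X ^ (n - 1) * (X + C c)).coeff i ∈ O.nonunits)
    (h0 : P.coeff 0 / π ∈ O) (h0' : P.coeff 0 / π ∉ O.nonunits) :
    ∃ W₁ W₂ : ValuationSubring E, SplitOut φ O π n z c W₁ W₂ := by
  letI : Algebra F E := φ.toAlgebra
  have hz' : aeval z P = 0 := by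
    rw [aeval_def, ← eval_map]
    exact hz
  have hgen' : ∀ w : E, ∃ Q : F[X], aeval z Q = w := by
    intro w
    obtain ⟨Q, hQ⟩ := hgen w
    refine ⟨Q, ?_⟩
    rw [aeval_def, ← eval_map]
    exact hQ
  exact @h1 F E _ _ φ.toAlgebra hfd O π hO hπ n hn hrank P z c hP hdeg hcoef hz' hgen' hc hc'
    hred h0 h0'

/-- Generation `E = φ(F)[z]` from the conclusion of `DKInsepStatement`. -/
theorem generation_of_insepOut (φ : F →+* E) (O : ValuationSubring F) (π : F) (p : ℕ) (z : E)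
    (W : ValuationSubring E) (hW : InsepOut φ O π p z W) (hπ0 : π ≠ 0) (w : E) :
    ∃ Q : F[X], (Q.map φ).eval z = w := by
  obtain ⟨hpir, -, -, hunif, -, hgen, -⟩ := hW
  obtain ⟨k, hk⟩ := exists_pow_mul_mem W hpir hunif w
  obtain ⟨c, -, hc⟩ := hgen _ hk
  refine ⟨∑ j : Fin p, C (c j / π ^ k) * X ^ (j : ℕ), ?_⟩
  have hφπ : φ π ≠ 0 := (map_ne_zero φ).2 hπ0
  rw [Polynomial.map_sum, eval_finsetSum]
  have h1 : ∀ j : Fin p, ((C (c j / π ^ k) * X ^ (j : ℕ)).map φ).eval z
      = (φ π ^ k)⁻¹ * (φ (c j) * z ^ (j : ℕ)) := by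
    intro j
    rw [Polynomial.map_mul, Polynomial.map_pow, map_X, map_C, eval_mul, eval_pow, eval_X, eval_C,
      map_div₀, map_pow]
    field_simp
  rw [Finset.sum_congr rfl (fun j _ => h1 j), ← Finset.mul_sum, ← hc]
  field_simp

end Along

end Fermat.Agent.H4.SS2
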