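/-
P-SS2 row 1051 (helper4): SS2-A12 VAL3-ABS,
`val3Abs (h1 : DKSplitStatement) (h2 : DKInsepStatement) : Val3AbsStatement`.

The three vertical valuations `V₂₀, V₁₁, V₀₂` of `E` from the two Kronecker polynomials:
* `DKInsep` along `α` over `O₂` (`z = Z`, `a = X₁`)     : `W₀₂`, unique above `O₂` along `α`;
* `DKInsep` along `β` over `O₁` (`z = -Z`, `a = Y₁`)    : `W₂₀'`, unique above `O₁` along `β`;
* generation `E = α(F)[Z] = β(F)[-Z]` from these two;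
* `DKSplit` along `α` over `O₁` (`z = Z`, `c = Y₁`)     : `W₁₁`, `W₂₀`;
* `DKSplit` along `β` over `O₂` (`z = -Z`, `c = X₁`)    : `W₁₁'`, `W₀₂'`;
* identification `W₂₀ = W₂₀'`, `W₁₁ = W₁₁'`, `W₀₂ = W₀₂'` by `Z + α Y₁ = β X₁` and the hypothesis
  "vertical along `α` ↔ vertical along `β`".
-/
import Fermat.Agent.H4.SS2.Val3Util

set_option autoImplicit false
set_option linter.unusedSectionVars false
set_option linter.style.haveILetI false
set_option linter.unusedVariables false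

noncomputable section

namespace Fermat.Agent.H4.SS2

open Polynomial Fermat.Agent.H11.SS2

set_option maxHeartbeats 1000000 in
/-- **VAL3-ABS** (row SS2-A12). -/
theorem val3Abs (h1 : DKSplitStatement) (h2 : DKInsepStatement) : Val3AbsStatement := by
  intro F E _ _ _ α β O₁ O₂ hO₁ hO₂ hne q hq hq₁ hq₂ X₁ Y₁ Z hX₁O₁ hX₁O₂ hY₁O₁ hY₁O₂ hα hβ hvert
    hZ Pα Pβ hPα hdα hPβ hdβ hcα hcβ hrα hrβ hredα₁ hα0 hredα₂ hnaX hredβ₂ hβ0 hredβ₁ hnaY
  have hq0 : q ≠ 0 := hq.ne_zero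
  have hqF : (q : F) ≠ 0 := hq₁.1
  have hqE : (q : E) ≠ 0 := by
    rw [← map_natCast α q]
    exact (map_ne_zero α).2 hqF
  -- genuine units
  have hX₁nu₂ : X₁ ∉ O₂.nonunits := by
    have := hnaX 0 O₂.zero_mem
    rwa [zero_pow hq0, sub_zero] at this
  have hY₁nu₁ : Y₁ ∉ O₁.nonunits := by
    have := hnaY 0 O₁.zero_mem
    rwa [zero_pow hq0, sub_zero] at this
  have hX₁0 : X₁ ≠ 0 := ne_zero_of_notMem_nonunits O₂ hX₁nu₂
  have hY₁0 : Y₁ ≠ 0 := ne_zero_of_notMem_nonunits O₁ hY₁nu₁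
  have hXq_nu : X₁ / (q : F) ∉ O₁.nonunits :=
    notMem_nonunits_of_vunit O₁ hX₁O₁ (div_ne_zero hX₁0 hqF)
  have hYq_nu : Y₁ / (q : F) ∉ O₂.nonunits :=
    notMem_nonunits_of_vunit O₂ hY₁O₂ (div_ne_zero hY₁0 hqF)
  have hX₁eq : X₁ = (q : F) * (X₁ / (q : F)) := by field_simp
  have hY₁eq : Y₁ = (q : F) * (Y₁ / (q : F)) := by field_simp
  have hX₁m₁ : X₁ ∈ O₁.nonunits := by
    rw [hX₁eq]
    exact nonunits_mul_mem O₁ hq₁.2.1 hX₁O₁.1
  have hY₁m₂ : Y₁ ∈ O₂.nonunits := by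
    rw [hY₁eq]
    exact nonunits_mul_mem O₂ hq₂.2.1 hY₁O₂.1
  have hcoeffX : ∀ (a : F), (X ^ q - C a : F[X]).coeff 0 = -a := by
    intro a
    rw [coeff_sub, coeff_X_pow, coeff_C_zero, if_neg (Ne.symm hq0), zero_sub]
  have hPα0 : Pα.coeff 0 ≠ 0 := by
    intro h
    have := hredα₂ 0
    rw [coeff_sub, hcoeffX, h, zero_sub, neg_neg] at this
    exact hX₁nu₂ this
  have hPβ0 : Pβ.coeff 0 ≠ 0 := by
    intro h
    have := hredβ₁ 0
    rw [coeff_sub, hcoeffX, h, zero_sub, neg_neg] at this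
    exact hY₁nu₁ this
  have hα0nu : Pα.coeff 0 / (q : F) ∉ O₁.nonunits :=
    notMem_nonunits_of_vunit O₁ hα0 (div_ne_zero hPα0 hqF)
  have hβ0nu : Pβ.coeff 0 / (q : F) ∉ O₂.nonunits :=
    notMem_nonunits_of_vunit O₂ hβ0 (div_ne_zero hPβ0 hqF)
  -- the four Dedekind-Kummer applications
  obtain ⟨W02, hW02⟩ := dkInsep_along h2 α hα.1 O₂ (q : F) hO₂ hq₂ q hq hq₂.2.1 hα.2 Pα Z X₁
    hPα hdα (fun i => (hcα i).2) hrα hX₁O₂.1 hredα₂ hnaX
  obtain ⟨W20', hW20'⟩ := dkInsep_along h2 β hβ.1 O₁ (q : F) hO₁ hq₁ q hq hq₁.2.1 hβ.2 Pβ (-Z) Y₁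
    hPβ hdβ (fun i => (hcβ i).1) hrβ hY₁O₁.1 hredβ₁ hnaY
  have genα := generation_of_insepOut α O₂ (q : F) q Z W02 hW02 hqF
  have genβ := generation_of_insepOut β O₁ (q : F) q (-Z) W20' hW20' hqF
  obtain ⟨W11, W20, hS⟩ := dkSplit_along h1 α hα.1 O₁ (q : F) hO₁ hq₁ q hq.two_le hα.2 Pα Z Y₁
    hPα hdα (fun i => (hcα i).1) hrα genα hY₁O₁.1 hY₁nu₁ hredα₁ hα0.1 hα0nu
  obtain ⟨W11', W02', hS'⟩ := dkSplit_along h1 β hβ.1 O₂ (q : F) hO₂ hq₂ q hq.two_le hβ.2 Pβ (-Z)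
    X₁ hPβ hdβ (fun i => (hcβ i).2) hrβ genβ hX₁O₂.1 hX₁nu₂ hredβ₂ hβ0.1 hβ0nu
  obtain ⟨hpir02, hc02α, hall02, hu02, hind02, hgen02, hins02⟩ := hW02
  obtain ⟨hpir20', hc20'β, hall20', hu20', hind20', hgen20', hins20'⟩ := hW20'
  obtain ⟨hne12, hpir11, hpir20, hc11α, hc20α, hallα, hu11, hram1, hram2, hZY20, hu20, hres11α,
    hres20α⟩ := hS
  obtain ⟨hne12', hpir11', hpir02', hc11'β, hc02'β, hallβ, hu11', hram1', hram2', hZX02', hu02',
    hres11'β, hres02'β⟩ := hS'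
  rw [map_natCast] at hu02 hu20' hu20 hu02' hram1 hram2
  -- membership transfer along comaps
  have memα : ∀ (V : ValuationSubring E) (O : ValuationSubring F), V.comap α = O →
      ∀ x : F, (x ∈ O → α x ∈ V) ∧ (x ∈ O.nonunits → α x ∈ V.nonunits) ∧
        (x ∉ O.nonunits → α x ∉ V.nonunits) := by
    intro V O h x
    subst h
    exact ⟨fun hx => ValuationSubring.mem_comap.1 hx, fun hx => (mem_nonunits_comap V α).1 hx,
      fun hx h' => hx ((mem_nonunits_comap V α).2 h')⟩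
  have memβ : ∀ (V : ValuationSubring E) (O : ValuationSubring F), V.comap β = O →
      ∀ x : F, (x ∈ O → β x ∈ V) ∧ (x ∈ O.nonunits → β x ∈ V.nonunits) ∧
        (x ∉ O.nonunits → β x ∉ V.nonunits) := by
    intro V O h x
    subst h
    exact ⟨fun hx => ValuationSubring.mem_comap.1 hx, fun hx => (mem_nonunits_comap V β).1 hx,
      fun hx h' => hx ((mem_nonunits_comap V β).2 h')⟩
  have hβX : β X₁ = Z + α Y₁ := hZ.symm
  -- identification of `W20`
  have hc20β : W20.comap β = O₁ := by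
    rcases (hvert W20).1 (Or.inl hc20α) with h | h
    · exact h
    · exfalso
      have := (memβ W20 O₂ h X₁).2.2 hX₁nu₂
      rw [hβX] at this
      exact this hZY20
  have h20 : W20 = W20' := hall20' W20 hc20β
  -- identification of `W11`
  have hαY11 : α Y₁ ∈ W11 ∧ α Y₁ ∉ W11.nonunits :=
    ⟨(memα W11 O₁ hc11α Y₁).1 hY₁O₁.1, (memα W11 O₁ hc11α Y₁).2.2 hY₁nu₁⟩
  have hβX11 : β X₁ ∈ W11 ∧ β X₁ ∉ W11.nonunits := by
    rw [hβX, add_comm]
    exact vunit_add_nonunit W11 hαY11.1 hαY11.2 hu11.2.1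
  have hc11β : W11.comap β = O₂ := by
    rcases (hvert W11).1 (Or.inl hc11α) with h | h
    · exfalso
      exact hβX11.2 ((memβ W11 O₁ h X₁).2.1 hX₁m₁)
    · exact h
  have hαY02' : α Y₁ ∈ W02'.nonunits := by
    have e : α Y₁ = -Z + β X₁ := by rw [hβX]; ring
    rw [e]
    exact hZX02'
  have h11 : W11 = W11' := by
    rcases hallβ W11 hc11β with h | h
    · exact h
    · exfalso
      rw [h] at hαY11
      exact hαY11.2 hαY02'
  -- identification of `W02`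
  have hc02β : W02.comap β = O₂ := by
    rcases (hvert W02).1 (Or.inr hc02α) with h | h
    · exfalso
      have e : W02 = W20 := (hall20' W02 h).trans h20.symm
      rw [e, hc20α] at hc02α
      exact hne hc02α
    · exact h
  have h02 : W02 = W02' := by
    rcases hallβ W02 hc02β with h | h
    · exfalso
      rw [← h11] at h
      rw [h, hc11α] at hc02α
      exact hne hc02α
    · exact h
  -- units
  have hαY20 : α Y₁ ∈ W20 ∧ α Y₁ ∉ W20.nonunits :=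
    ⟨(memα W20 O₁ hc20α Y₁).1 hY₁O₁.1, (memα W20 O₁ hc20α Y₁).2.2 hY₁nu₁⟩
  have hZ20 : Z ∈ W20 ∧ Z ∉ W20.nonunits := by
    have := vunit_sub_nonunit W20 hαY20.1 hαY20.2 hZY20
    have e : α Y₁ - (Z + α Y₁) = -Z := by ring
    rw [e] at this
    refine ⟨by simpa using W20.neg_mem _ this.1, fun h => this.2 (W20.nonunits.neg_mem h)⟩
  have hβX02 : β X₁ ∈ W02 ∧ β X₁ ∉ W02.nonunits :=
    ⟨(memβ W02 O₂ hc02β X₁).1 hX₁O₂.1, (memβ W02 O₂ hc02β X₁).2.2 hX₁nu₂⟩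
  have hαY02 : α Y₁ ∈ W02.nonunits := by rw [h02]; exact hαY02'
  have hZ02 : Z ∈ W02 ∧ Z ∉ W02.nonunits := by
    have := vunit_sub_nonunit W02 hβX02.1 hβX02.2 hαY02
    have e : β X₁ - α Y₁ = Z := by rw [hβX]; ring
    rwa [e] at this
  refine ⟨W20, W11, W02, ?_⟩
  refine
    { ne₁ := Ne.symm hne12
      ne₂ := ?_
      ne₃ := ?_
      pir₂₀ := hpir20
      pir₁₁ := hpir11
      pir₀₂ := hpir02
      comap₂₀α := hc20α
      comap₁₁α := hc11α
      comap₀₂α := hc02α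
      comap₂₀β := hc20β
      comap₁₁β := hc11β
      comap₀₂β := hc02β
      allα₁ := fun V hV => (hallα V hV).symm
      allα₂ := hall02
      allβ₁ := fun V hV => (hall20' V hV).trans h20.symm
      allβ₂ := ?_
      unif₂₀ := hu20
      unif₀₂ := hu02
      unif₁₁ := hu11
      ram₁₁ := ⟨hram1, by rw [inv_div]; exact hram2⟩
      Z₂₀ := vunit_of_notMem_nonunits W20 hZ20.1 hZ20.2
      Z₀₂ := vunit_of_notMem_nonunits W02 hZ02.1 hZ02.2
      Y₀₂ := ?_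
      Y₁₁ := vunit_of_notMem_nonunits W11 hαY11.1 hαY11.2
      Y₂₀ := vunit_of_notMem_nonunits W20 hαY20.1 hαY20.2
      X₂₀ := ?_
      X₁₁ := by rw [← hβX]; exact vunit_of_notMem_nonunits W11 hβX11.1 hβX11.2
      X₀₂ := by rw [← hβX]; exact vunit_of_notMem_nonunits W02 hβX02.1 hβX02.2
      res₂₀α := hres20α
      res₁₁α := hres11α
      res₁₁β := by rw [h11]; exact hres11'β
      res₀₂β := by rw [h02]; exact hres02'β
      insep₀₂α := ?_
      insep₂₀β := ?_ }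
  · -- `V₂₀ ≠ V₀₂`
    intro h
    rw [h, hc02α] at hc20α
    exact hne hc20α.symm
  · -- `V₁₁ ≠ V₀₂`
    intro h
    rw [h, hc02α] at hc11α
    exact hne hc11α.symm
  · -- completeness along `β` above `O₂`
    intro V hV
    rcases hallβ V hV with h | h
    · exact Or.inl (h.trans h11.symm)
    · exact Or.inr (h.trans h02.symm)
  · -- `α Y₁` is a uniformiser of `V₀₂`
    have e : α Y₁ = (q : E) * α (Y₁ / (q : F)) := by
      rw [← map_natCast α q, ← map_mul, ← hY₁eq]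
    rw [e]
    exact dkUnif_mul_unit W02 hu02 ((memα W02 O₂ hc02α _).1 hY₁O₂.1)
      ((memα W02 O₂ hc02α _).2.2 hYq_nu)
  · -- `Z + α Y₁ = β X₁` is a uniformiser of `V₂₀`
    have e : Z + α Y₁ = (q : E) * β (X₁ / (q : F)) := by
      rw [← hβX, ← map_natCast β q, ← map_mul, ← hX₁eq]
    rw [e]
    exact dkUnif_mul_unit W20 hu20 ((memβ W20 O₁ hc20β _).1 hX₁O₁.1)
      ((memβ W20 O₁ hc20β _).2.2 hXq_nu)
  · -- inseparable data of `V₀₂` along `α`
    refine ⟨hins02, fun w hw => ?_, hind02⟩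
    obtain ⟨c, hc, e⟩ := hgen02 w hw
    refine ⟨c, hc, ?_⟩
    rw [e, sub_self]
    exact zero_mem_nonunits W02
  · -- inseparable data of `V₂₀` along `β` (change of sign `-Z ↦ Z`)
    rw [h20]
    have hsign : ∀ c : Fin q → F, (∑ j : Fin q, β (c j) * (-Z) ^ (j : ℕ))
        = ∑ j : Fin q, β ((-1) ^ (j : ℕ) * c j) * Z ^ (j : ℕ) := by
      intro c
      refine Finset.sum_congr rfl fun j _ => ?_
      rw [neg_pow, map_mul, map_pow, map_neg, map_one]
      ring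
    have hpm : ∀ (O : ValuationSubring F) (j : ℕ), ((-1 : F) ^ j) ∈ O := fun O j =>
      O.pow_mem (O.neg_mem _ O.one_mem) j
    refine ⟨hins20', fun w hw => ?_, fun c hc hsum j => ?_⟩
    · obtain ⟨c, hc, e⟩ := hgen20' w hw
      refine ⟨fun j : Fin q => (-1) ^ (j : ℕ) * c j,
        fun j => O₁.mul_mem _ _ (hpm O₁ j) (hc j), ?_⟩
      rw [e, hsign, sub_self]
      exact zero_mem_nonunits W20'
    · have hc' : ∀ j : Fin q, (-1 : F) ^ (j : ℕ) * c j ∈ O₁ :=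
        fun j => O₁.mul_mem _ _ (hpm O₁ j) (hc j)
      have hsum' : (∑ j : Fin q, β ((-1) ^ (j : ℕ) * c j) * (-Z) ^ (j : ℕ)) ∈ W20'.nonunits := by
        rw [hsign]
        have e : ∀ j : Fin q, (-1 : F) ^ (j : ℕ) * ((-1) ^ (j : ℕ) * c j) = c j := by
          intro j
          rw [← mul_assoc, ← pow_add, ← two_mul, pow_mul]
          simp
        simp only [e]
        exact hsum
      have := hind20' _ hc' hsum' j
      have e2 : c j = (-1) ^ (j : ℕ) * ((-1) ^ (j : ℕ) * c j) := by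
        rw [← mul_assoc, ← pow_add, ← two_mul, pow_mul]
        simp
      rw [e2]
      exact mem_nonunits_mul_comm O₁ this (hpm O₁ j)

end Fermat.Agent.H4.SS2
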