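/-
P-SS2 (helper4): ROUTE B ASSEMBLY of the three vertical valuations at the model level.

`modelVal3Data_routeB` : from `ModelVertIffStatement M' q` (row 1080 VERT-IFF) alone, the three
valuations `V₂₀, V₁₁, V₀₂` of `E = ModelField K₁ (M' q q)` with all the data of
`H11.SS2.Val3Data`, for the elements `X₁, Y₁, Z` with expansions `sX1, sY1, sZ`.

Plugged in (all landed, unconditional): `val3Abs` (helper4, row 1051), `dkSplit` (helper18),
`dkInsep` (helper46), `modelVal3Inputs` (helper86) with `modelKron2` (helper73), `modelNormZ`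
(helper6), `modelRed` (helper90), `al2Exists` (helper79), the degrees `modelDeg3_alpha'`,
`modelDeg3_beta'` (helper1), the uniformiser `q` and principality of `vInf`, `vZero`
(helper7, helper86), `modelUnit3` (helper4, row 1079).
-/
import Fermat.Agent.H4.SS2.Val3Abs
import Fermat.Agent.H4.SS2.Unit3
import Fermat.Agent.H86.SS2.Emb3Inputs
import Fermat.Agent.H18.SS2.DKSplit
import Fermat.Agent.H46.SS2.DKInsep
import Fermat.Agent.H90.SS2.ModelRed
import Fermat.Agent.H79.SS2.AL2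
import Fermat.Agent.H73.SS2.Kron2Main
import Fermat.Agent.H6.SS2.NormZ
import Fermat.Agent.H1.SS2.DegK1
import Fermat.Agent.H1.SS2.DegBeta

set_option autoImplicit false
set_option linter.unusedSectionVars false
set_option linter.style.haveILetI false
set_option linter.unusedVariables false
set_option synthInstance.maxHeartbeats 400000
set_option maxHeartbeats 1600000

noncomputable section

namespace Fermat.Agent.H4.SS2

open Polynomial ModularCurve AlgebraicCurve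
open Fermat.Agent.H22.KL Fermat.Agent.H8.SS Fermat.Agent.H7.SS Fermat.Agent.H82.SS
open Fermat.Agent.H7.SS2 Fermat.Agent.H11.SS2 Fermat.Agent.H86.SS2

section Unif

variable (K₁ : Type) [Field K₁] [Algebra ℚ K₁] (A₀ : Type) [CommRing A₀] [IsDomain A₀]
  [IsDiscreteValuationRing A₀] [Algebra A₀ K₁] [IsFractionRing A₀ K₁] (N q : ℕ)

/-- `q` is a uniformiser of `vInf` (unramified base). -/
theorem routeB_dkUnif_vInf [Fact q.Prime] (hqi : Irreducible ((q : ℕ) : A₀)) :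
    DKUnif (vInf K₁ A₀ N) ((q : ℕ) : ModelField K₁ N) :=
  isUniformiser_gaussVal_q (laurentBaseChange K₁ (modularFunctionFieldFull N))
    (hasGNF_model K₁ A₀ N) q hqi

/-- `q` is a uniformiser of `vZero W`. -/
theorem routeB_dkUnif_vZero [Fact q.Prime] (W : ModelField K₁ N ≃ₐ[K₁] ModelField K₁ N)
    (hqi : Irreducible ((q : ℕ) : A₀)) :
    DKUnif (vZero K₁ A₀ N W) ((q : ℕ) : ModelField K₁ N) := by
  obtain ⟨h0, h1, h2⟩ := routeB_dkUnif_vInf K₁ A₀ N q hqi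
  have hW : W ((q : ℕ) : ModelField K₁ N) = ((q : ℕ) : ModelField K₁ N) := map_natCast W q
  refine ⟨h0, ?_, fun y hy => ?_⟩
  · rw [mem_nonunits_vZero_iff, hW]
    exact h1
  · rw [mem_vZero_iff, map_div₀, hW]
    exact h2 _ ((mem_nonunits_vZero_iff W y).1 hy)

/-- The Gauss valuation of level `N q` restricts to the Gauss valuation of level `N` along
`β` (`t ↦ t^q`). -/
theorem routeB_comap_beta_vInf [NeZero N] [NeZero q] :
    (vInf K₁ A₀ (N * q)).comap (heckeBetaBar K₁ N q).toRingHom = vInf K₁ A₀ N := by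
  have hcoe : ∀ z : ModelField K₁ N,
      (((heckeBetaBar K₁ N q).toRingHom z : ModelField K₁ (N * q)) : LaurentSeries K₁)
        = qExpand K₁ q (z : LaurentSeries K₁) := fun z => rfl
  have hmem : ∀ a : LaurentSeries A₀,
      gIota K₁ A₀ a ∈ laurentBaseChange K₁ (modularFunctionFieldFull N) →
      gIota K₁ A₀ (qExpand A₀ q a) ∈ laurentBaseChange K₁ (modularFunctionFieldFull (N * q)) := by
    intro a ha
    have e : gIota K₁ A₀ (qExpand A₀ q a) = qExpand K₁ q (gIota K₁ A₀ a) :=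
      ModularCurve.coeffMap_qExpand _ _ _
    rw [e]
    exact (heckeBetaBar K₁ N q ⟨gIota K₁ A₀ a, ha⟩).2
  have hrho : ∀ b : LaurentSeries A₀, gRho A₀ b ≠ 0 → gRho A₀ (qExpand A₀ q b) ≠ 0 := by
    intro b hb
    have e : gRho A₀ (qExpand A₀ q b) = qExpand _ q (gRho A₀ b) :=
      ModularCurve.coeffMap_qExpand _ _ _
    rw [e]
    exact (map_ne_zero_iff _ (qExpand_injective (R := IsLocalRing.ResidueField A₀) (N := q))).2 hb
  have hrho0 : ∀ a : LaurentSeries A₀, gRho A₀ a = 0 → gRho A₀ (qExpand A₀ q a) = 0 := by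
    intro a ha
    have e : gRho A₀ (qExpand A₀ q a) = qExpand _ q (gRho A₀ a) :=
      ModularCurve.coeffMap_qExpand _ _ _
    rw [e, ha, map_zero]
  have hrel : ∀ (z : LaurentSeries K₁) (a b : LaurentSeries A₀),
      z * gIota K₁ A₀ b = gIota K₁ A₀ a →
      qExpand K₁ q z * gIota K₁ A₀ (qExpand A₀ q b) = gIota K₁ A₀ (qExpand A₀ q a) := by
    intro z a b h
    have ea : gIota K₁ A₀ (qExpand A₀ q a) = qExpand K₁ q (gIota K₁ A₀ a) :=
      ModularCurve.coeffMap_qExpand _ _ _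
    have eb : gIota K₁ A₀ (qExpand A₀ q b) = qExpand K₁ q (gIota K₁ A₀ b) :=
      ModularCurve.coeffMap_qExpand _ _ _
    rw [ea, eb, ← map_mul, h]
  refine comap_eq_of_mem _ _ _ (fun z hz => ?_) (fun z hz => ?_)
  · rw [mem_vInf_iff] at hz ⊢
    obtain ⟨a, b, ha, hb, hrb, h⟩ := hz
    rw [hcoe]
    exact ⟨qExpand A₀ q a, qExpand A₀ q b, hmem a ha, hmem b hb, hrho b hrb, hrel _ a b h⟩
  · rw [mem_nonunits_vInf_iff] at hz ⊢
    obtain ⟨a, b, ha, hb, hra, hrb, h⟩ := hz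
    rw [hcoe]
    exact ⟨qExpand A₀ q a, qExpand A₀ q b, hmem a ha, hmem b hb, hrho0 a hra, hrho b hrb,
      hrel _ a b h⟩

end Unif

section Assembly

variable (K₁ : Type) [Field K₁] [Algebra ℚ K₁] [FiniteDimensional ℚ K₁]
  (A₀ : Type) [CommRing A₀] [IsDomain A₀]
  [IsDiscreteValuationRing A₀] [Algebra A₀ K₁] [IsFractionRing A₀ K₁]
  (M' q : ℕ) [NeZero M'] [NeZero q]

/-- **ROUTE B**: the three vertical valuations at level `M' q q` from VERT-IFF, with explicit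
hypotheses for the two concrete leaves UNIT3 and VERT-IFF. -/
theorem modelVal3Data_routeB_of [Fact q.Prime]
    (hU : ModelUnit3Statement M' q h4Z) (hV : ModelVertIffStatement M' q)
    (hq2 : q ≠ 2) (h4 : 4 ∣ M') (hqM : ¬ q ∣ M') (hqi : Irreducible ((q : ℕ) : A₀))
    (Wq : ModelField K₁ (M' * q) ≃ₐ[K₁] ModelField K₁ (M' * q))
    (hWq : IsAtkinLehnerModel K₁ M' q Wq) :
    ∃ (X₁ Y₁ : ModelField K₁ (M' * q)) (Z : ModelField K₁ (M' * q * q))
      (V₂₀ V₁₁ V₀₂ : ValuationSubring (ModelField K₁ (M' * q * q))),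
      (X₁ : LaurentSeries K₁) = sX1 K₁ q ∧ (Y₁ : LaurentSeries K₁) = sY1 K₁ q ∧
      (Z : LaurentSeries K₁) = sZ K₁ q ∧
      Val3Data (heckeAlphaBar K₁ (M' * q) q).toRingHom (heckeBetaBar K₁ (M' * q) q).toRingHom
        (vInf K₁ A₀ (M' * q)) (vZero K₁ A₀ (M' * q) Wq) V₂₀ V₁₁ V₀₂ q Y₁ Z := by
  have hq : q.Prime := Fact.out
  have hcop : Nat.Coprime M' q := ((Nat.Prime.coprime_iff_not_dvd hq).2 hqM).symm
  obtain ⟨X₁, Y₁, Z, Pα, Pβ, hXs, hYs, hZs, hI⟩ :=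
    modelVal3Inputs (K₁ := K₁) (A₀ := A₀) (M' := M') (q := q)
      (Fermat.Agent.H73.Kron2.modelKron2 M' q (Fermat.Agent.H6.SS2.modelNormZ q))
      (Fermat.Agent.H90.SS2Red.modelRed q) (Fermat.Agent.H79.SS2.al2Exists M' q)
      hq2 h4 hqM hqi Wq hWq
  -- the Hauptmodul and its transform
  let H₀ : ModelField K₁ M' := ⟨h4S K₁, h4S_mem_laurentBaseChange K₁ M' h4⟩
  let h : ModelField K₁ (M' * q) := heckeAlphaBar K₁ M' q H₀
  let h1 : ModelField K₁ (M' * q) := heckeBetaBar K₁ M' q H₀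
  have hhs : (h : LaurentSeries K₁) = coeffMap (Int.castRingHom K₁) h4Z := by
    show ((heckeAlphaBar K₁ M' q H₀ : ModelField K₁ (M' * q)) : LaurentSeries K₁) = _
    rw [coe_heckeAlphaBar]
    rfl
  have hh1s : (h1 : LaurentSeries K₁) = qExpand K₁ q (coeffMap (Int.castRingHom K₁) h4Z) := by
    show ((heckeBetaBar K₁ M' q H₀ : ModelField K₁ (M' * q)) : LaurentSeries K₁) = _
    rw [coe_heckeBetaBar]
    rfl
  have hX : X₁ = h1 - h ^ q := by
    apply Subtype.ext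
    rw [hXs]
    push_cast
    rw [hhs, hh1s]
    rfl
  have hY : Y₁ = h - h1 ^ q := by
    apply Subtype.ext
    rw [hYs]
    push_cast
    rw [hhs, hh1s]
    rfl
  obtain ⟨hnaY, hnaX⟩ := hU hq hqM (h4S_coeff_neg_one ℤ) (fun n hn => h4S_coeff_of_lt ℤ hn)
    K₁ A₀ hqi Wq hWq h h1 hhs hh1s (hWq.1 H₀) (hWq.2 H₀)
  rw [← hY] at hnaY
  rw [← hX] at hnaX
  haveI : CharZero K₁ := algebraRat.charZero K₁
  haveI : CharZero (ModelField K₁ (M' * q)) :=
    charZero_of_injective_algebraMap (algebraMap K₁ (ModelField K₁ (M' * q))).injective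
  letI : Algebra A₀ (ModelField K₁ (M' * q)) :=
    ((algebraMap K₁ (ModelField K₁ (M' * q))).comp (algebraMap A₀ K₁)).toAlgebra
  haveI : IsScalarTower A₀ K₁ (ModelField K₁ (M' * q)) :=
    IsScalarTower.of_algebraMap_eq (fun _ => rfl)
  obtain ⟨V₂₀, V₁₁, V₀₂, hval⟩ :=
    val3Abs Fermat.Agent.H18.SS2.dkSplit Fermat.Agent.H46.SS2.dkInsep
      (ModelField K₁ (M' * q)) (ModelField K₁ (M' * q * q))
      (heckeAlphaBar K₁ (M' * q) q).toRingHom (heckeBetaBar K₁ (M' * q) q).toRingHom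
      (vInf K₁ A₀ (M' * q)) (vZero K₁ A₀ (M' * q) Wq)
      (isPrincipalIdealRing_vInf hqi) (isPrincipalIdealRing_vZero Wq hqi) hI.ne_O
      q hq (routeB_dkUnif_vInf K₁ A₀ (M' * q) q hqi) (routeB_dkUnif_vZero K₁ A₀ (M' * q) q Wq hqi)
      X₁ Y₁ Z hI.x1_O1 hI.x1_O2 hI.y1_O1 hI.y1_O2
      (Fermat.Agent.H1.SS2.modelDeg3_alpha' (M' * q) q hq (dvd_mul_left q M') K₁)
      (Fermat.Agent.H1.SS2.modelDeg3_beta' M' q hq hcop (Fermat.Agent.H79.SS2.al2Exists M' q) K₁)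
      (hV hq hqM K₁ A₀ hqi Wq hWq) hI.rel
      Pα Pβ hI.monicα hI.degα hI.monicβ hI.degβ hI.coeffα hI.coeffβ hI.rootα hI.rootβ
      hI.redα1 hI.unitα hI.redα2 hnaX hI.redβ1 hI.unitβ hI.redβ2 hnaY
  exact ⟨X₁, Y₁, Z, V₂₀, V₁₁, V₀₂, hXs, hYs, hZs, hval⟩

/-- **ROUTE B**: the three vertical valuations at level `M' q q` from VERT-IFF (row 1080) only. -/
theorem modelVal3Data_routeB [Fact q.Prime] (hV : ModelVertIffStatement M' q)
    (hq2 : q ≠ 2) (h4 : 4 ∣ M') (hqM : ¬ q ∣ M') (hqi : Irreducible ((q : ℕ) : A₀))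
    (Wq : ModelField K₁ (M' * q) ≃ₐ[K₁] ModelField K₁ (M' * q))
    (hWq : IsAtkinLehnerModel K₁ M' q Wq) :
    ∃ (X₁ Y₁ : ModelField K₁ (M' * q)) (Z : ModelField K₁ (M' * q * q))
      (V₂₀ V₁₁ V₀₂ : ValuationSubring (ModelField K₁ (M' * q * q))),
      (X₁ : LaurentSeries K₁) = sX1 K₁ q ∧ (Y₁ : LaurentSeries K₁) = sY1 K₁ q ∧
      (Z : LaurentSeries K₁) = sZ K₁ q ∧
      Val3Data (heckeAlphaBar K₁ (M' * q) q).toRingHom (heckeBetaBar K₁ (M' * q) q).toRingHom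
        (vInf K₁ A₀ (M' * q)) (vZero K₁ A₀ (M' * q) Wq) V₂₀ V₁₁ V₀₂ q Y₁ Z :=
  modelVal3Data_routeB_of K₁ A₀ M' q (modelUnit3 M' q h4Z) hV hq2 h4 hqM hqi Wq hWq

/-- **ROUTE B, concrete `V₂₀`**: the same with `V₂₀ = vInf K₁ A₀ (M' q q)`, the Gauss valuation
of `q`-expansions at level `M' q q`. -/
theorem modelVal3Data_routeB_vInf [Fact q.Prime] (hV : ModelVertIffStatement M' q)
    (hq2 : q ≠ 2) (h4 : 4 ∣ M') (hqM : ¬ q ∣ M') (hqi : Irreducible ((q : ℕ) : A₀))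
    (Wq : ModelField K₁ (M' * q) ≃ₐ[K₁] ModelField K₁ (M' * q))
    (hWq : IsAtkinLehnerModel K₁ M' q Wq) :
    ∃ (X₁ Y₁ : ModelField K₁ (M' * q)) (Z : ModelField K₁ (M' * q * q))
      (V₁₁ V₀₂ : ValuationSubring (ModelField K₁ (M' * q * q))),
      (X₁ : LaurentSeries K₁) = sX1 K₁ q ∧ (Y₁ : LaurentSeries K₁) = sY1 K₁ q ∧
      (Z : LaurentSeries K₁) = sZ K₁ q ∧
      Val3Data (heckeAlphaBar K₁ (M' * q) q).toRingHom (heckeBetaBar K₁ (M' * q) q).toRingHom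
        (vInf K₁ A₀ (M' * q)) (vZero K₁ A₀ (M' * q) Wq)
        (vInf K₁ A₀ (M' * q * q)) V₁₁ V₀₂ q Y₁ Z := by
  obtain ⟨X₁, Y₁, Z, V₂₀, V₁₁, V₀₂, hXs, hYs, hZs, hval⟩ :=
    modelVal3Data_routeB K₁ A₀ M' q hV hq2 h4 hqM hqi Wq hWq
  have e : vInf K₁ A₀ (M' * q * q) = V₂₀ :=
    hval.allβ₁ _ (routeB_comap_beta_vInf K₁ A₀ (M' * q) q)
  subst e
  exact ⟨X₁, Y₁, Z, V₁₁, V₀₂, hXs, hYs, hZs, hval⟩

end Assembly

end Fermat.Agent.H4.SS2
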