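import Fermat.Agent.H11.SS2.ModelDefs
import Fermat.Agent.H65.SS.KtFrobNode
import Fermat.Agent.H62.SS.HauptIntegral

/-!
# P-SS2 row 1078 (SS2-C9a CHART-EQ): `B(j(t^q)) = B(j)` at level `M' q q`

Draft by helper36 (his box was locked), compiled, repaired and landed by helper4.

`modelChartEq M' q : Fermat.Agent.H11.SS2.ModelChartEqStatement M' q`.

* `j_q ∈ B(j)`: `Fermat.Agent.H66.SS.smi_gen` at level `M' q q`.
* `j ∈ B(j_q)`: at level `M' q` the Atkin-Lehner automorphism `Wq` exchanges `j` and `j_q`, so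
  `j = Wq (Wq j) ∈ B(Wq j) = B(j_q)`; push forward by the inclusion `α`.
-/

set_option autoImplicit false
set_option linter.style.haveILetI false
set_option linter.unusedSectionVars false
set_option synthInstance.maxHeartbeats 400000
set_option maxHeartbeats 1600000

noncomputable section

namespace Fermat.Agent.H4.SS2

open ModularCurve AlgebraicCurve
open Fermat.Agent.H22.KL Fermat.Agent.H82.SS

/-- `x ∈ B(x)`. -/
theorem chartEqB_self_mem {A : Type} [CommRing A] {E : Type} [Field E] [Algebra A E] (x : E) :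
    x ∈ chartClosure A E x := by
  have h : x ∈ chartRing A E x := Algebra.subset_adjoin rfl
  have h2 : IsIntegral (chartRing A E x) x := by
    have : x = algebraMap (chartRing A E x) E ⟨x, h⟩ := rfl
    rw [this]
    exact isIntegral_algebraMap
  exact h2

/-- **CHART-EQ**. -/
theorem modelChartEq (M' q : ℕ) [NeZero M'] [NeZero q] :
    Fermat.Agent.H11.SS2.ModelChartEqStatement M' q := by
  intro hq hqM K₁ _ _ _ A₀ _ _ _ _ _ algE towE Wq hW x xq hx hxq
  -- the `A₀`-algebra structure at level `M' q`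
  letI algE₁ : Algebra A₀ (ModelField K₁ (M' * q)) :=
    ((algebraMap K₁ (ModelField K₁ (M' * q))).comp (algebraMap A₀ K₁)).toAlgebra
  haveI towE₁ : IsScalarTower A₀ K₁ (ModelField K₁ (M' * q)) :=
    IsScalarTower.of_algebraMap_eq (fun _ => rfl)
  -- `j_q ∈ B(j)` at level `M' q q`
  have h1 : xq ∈ chartClosure A₀ (ModelField K₁ (M' * q * q)) x := by
    rw [Fermat.Agent.H87.KL.mem_chartClosure_iff]
    refine Fermat.Agent.H66.SS.smi_gen x hx xq q ?_
    rw [hxq, Fermat.Agent.H27.KLGB.coeffEmb_jq]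
  -- the coordinate at level `M' q`
  obtain ⟨x₁, hx₁, hαx⟩ := Fermat.Agent.H65.SS.ktf_exists_level_coord (M' * q) q x hx
  obtain ⟨x', hx', hαx'⟩ := Fermat.Agent.H65.SS.ktf_exists_level_coord M' q x₁ hx₁
  have hWx : Wq x₁ = heckeBetaBar K₁ M' q x' := by
    rw [← hαx']
    exact hW.1 x'
  have hWWx : Wq (Wq x₁) = x₁ := by
    rw [hWx, hW.2 x', hαx']
  -- `Wq j ∈ B(j)` at level `M' q`, hence `j = Wq (Wq j) ∈ B(Wq j)`
  have h2 : Wq x₁ ∈ chartClosure A₀ (ModelField K₁ (M' * q)) x₁ :=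
    Fermat.Agent.H65.SS.ktf_W_coord_mem M' q x₁ hx₁ Wq hW
  have hA : ∀ a : A₀, (Wq : ModelField K₁ (M' * q) →+* ModelField K₁ (M' * q))
      (algebraMap A₀ (ModelField K₁ (M' * q)) a) = algebraMap A₀ (ModelField K₁ (M' * q)) a := by
    intro a
    rw [IsScalarTower.algebraMap_apply A₀ K₁ (ModelField K₁ (M' * q))]
    exact Wq.commutes _
  have h3 : x₁ ∈ chartClosure A₀ (ModelField K₁ (M' * q)) (Wq x₁) := by
    have := Fermat.Agent.H65.SS.ktf_map_chartClosure
      (Wq : ModelField K₁ (M' * q) →+* ModelField K₁ (M' * q)) hA x₁ (Wq x₁) h2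
    have e : (Wq : ModelField K₁ (M' * q) →+* ModelField K₁ (M' * q)) (Wq x₁) = x₁ := hWWx
    rw [e] at this
    exact this
  -- push forward by `α`
  have hαW : heckeAlphaBar K₁ (M' * q) q (Wq x₁) = xq := by
    apply Subtype.ext
    rw [coe_heckeAlphaBar, hWx, coe_heckeBetaBar, hx', hxq]
  have h4 : x ∈ chartClosure A₀ (ModelField K₁ (M' * q * q)) xq := by
    have h5 : ((heckeAlphaBar K₁ (M' * q) q).restrictScalars A₀) (Wq x₁) ∈
        chartClosure A₀ (ModelField K₁ (M' * q * q)) xq := by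
      have e : ((heckeAlphaBar K₁ (M' * q) q).restrictScalars A₀) (Wq x₁) = xq := hαW
      rw [e]
      exact chartEqB_self_mem xq
    have h6 := Fermat.Agent.H62.SS.chartClosure_map_le
      ((heckeAlphaBar K₁ (M' * q) q).restrictScalars A₀) (Wq x₁) xq h5 x₁ h3
    have e : ((heckeAlphaBar K₁ (M' * q) q).restrictScalars A₀) x₁ = x := hαx
    rw [e] at h6
    exact h6
  exact le_antisymm (Fermat.Agent.H65.SS.ktf_chartClosure_le_of_mem h1)
    (Fermat.Agent.H65.SS.ktf_chartClosure_le_of_mem h4)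

end Fermat.Agent.H4.SS2

end
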