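/-
P-SS2 (helper4): the three vertical valuations at the model level, UNCONDITIONAL.

* `modelChartEq` (row 1078, draft helper36) and `modelVertIff` (row 1080, helper93) give
  `modelVertIffU : ModelVertIffStatement M' q`;
* `modelVal3Data` : `Val3Data` for `V₂₀ = vInf K₁ A₀ (M' q q)` and some `V₁₁`, `V₀₂`
  (Route B, `Fermat.Agent.H4.SS2.modelVal3Data_routeB_vInf`), for every odd prime `q ∤ M'`,
  `4 ∣ M'`, over every number field `K₁` and discrete valuation ring `A₀` of `K₁` with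
  uniformiser `q`.
-/
import Fermat.Agent.H4.SS2.ModelVal3B
import Fermat.Agent.H4.SS2.ChartEq
import Fermat.Agent.H93.SS2.VertIff

set_option autoImplicit false
set_option linter.unusedSectionVars false
set_option linter.style.haveILetI false

noncomputable section

namespace Fermat.Agent.H4.SS2

open ModularCurve AlgebraicCurve
open Fermat.Agent.H22.KL Fermat.Agent.H82.SS
open Fermat.Agent.H7.SS2 Fermat.Agent.H11.SS2 Fermat.Agent.H86.SS2

/-- **VERT-IFF**, unconditional. -/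
theorem modelVertIffU (M' q : ℕ) [NeZero M'] [NeZero q] : ModelVertIffStatement M' q :=
  Fermat.Agent.H93.SS2.modelVertIff M' q (modelChartEq M' q)

/-- **The three vertical valuations at level `M' q q`** (unconditional): `V₂₀` is the Gauss
valuation of `q`-expansions. -/
theorem modelVal3Data (K₁ : Type) [Field K₁] [Algebra ℚ K₁] [FiniteDimensional ℚ K₁]
    (A₀ : Type) [CommRing A₀] [IsDomain A₀]
    [IsDiscreteValuationRing A₀] [Algebra A₀ K₁] [IsFractionRing A₀ K₁]
    (M' q : ℕ) [NeZero M'] [NeZero q] [Fact q.Prime]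
    (hq2 : q ≠ 2) (h4 : 4 ∣ M') (hqM : ¬ q ∣ M') (hqi : Irreducible ((q : ℕ) : A₀))
    (Wq : ModelField K₁ (M' * q) ≃ₐ[K₁] ModelField K₁ (M' * q))
    (hWq : IsAtkinLehnerModel K₁ M' q Wq) :
    ∃ (X₁ Y₁ : ModelField K₁ (M' * q)) (Z : ModelField K₁ (M' * q * q))
      (V₁₁ V₀₂ : ValuationSubring (ModelField K₁ (M' * q * q))),
      (X₁ : LaurentSeries K₁) = sX1 K₁ q ∧ (Y₁ : LaurentSeries K₁) = sY1 K₁ q ∧
      (Z : LaurentSeries K₁) = sZ K₁ q ∧
      Val3Data (heckeAlphaBar K₁ (M' * q) q).toRingHom (heckeBetaBar K₁ (M' * q) q).toRingHom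
        (vInf K₁ A₀ (M' * q)) (vZero K₁ A₀ (M' * q) Wq)
        (vInf K₁ A₀ (M' * q * q)) V₁₁ V₀₂ q Y₁ Z :=
  modelVal3Data_routeB_vInf K₁ A₀ M' q (modelVertIffU M' q) hq2 h4 hqM hqi Wq hWq

end Fermat.Agent.H4.SS2
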