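/-
P-SS2 (helper4): GENERIC form of the Route B assembly (every prime `q`, any Hauptmodul).

`val3Data_of_inputs` : from helper86's package `ModelVal3Inputs K₁ A₀ M' q Wq X₁ Y₁ Z Pα Pβ`
and the two facts "`X₁` (resp. `Y₁`) is not a `q`-th power modulo the maximal ideal of
`vZero Wq` (resp. `vInf`)", the three vertical valuations with `V₂₀ = vInf K₁ A₀ (M' q q)`.
`val3Data_of_inputs_haupt` : the same with the two facts supplied by `modelUnit3` for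
`X₁ = H₁ - H^q`, `Y₁ = H - H₁^q`, `H` with expansion `h₀ = t⁻¹ + …`, `Wq H = H₁`, `Wq H₁ = H`.
No hypothesis on the parity of `q`, no hypothesis on `M'` beyond `q ∤ M'`
(use it for the level-9 Hauptmodul at `q = 2`).
-/
import Fermat.Agent.H4.SS2.ModelVal3Final

set_option autoImplicit false
set_option linter.unusedSectionVars false
set_option linter.style.haveILetI false
set_option linter.unusedVariables false
set_option synthInstance.maxHeartbeats 400000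
set_option maxHeartbeats 1600000

noncomputable section

namespace Fermat.Agent.H4.SS2

open Polynomial ModularCurve AlgebraicCurve
open Fermat.Agent.H22.KL Fermat.Agent.H8.SS Fermat.Agent.H7.SS Fermat.Agent.H82.SS
open Fermat.Agent.H7.SS2 Fermat.Agent.H11.SS2 Fermat.Agent.H86.SS2

variable (K₁ : Type) [Field K₁] [Algebra ℚ K₁] [FiniteDimensional ℚ K₁]
  (A₀ : Type) [CommRing A₀] [IsDomain A₀]
  [IsDiscreteValuationRing A₀] [Algebra A₀ K₁] [IsFractionRing A₀ K₁]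
  (M' q : ℕ) [NeZero M'] [NeZero q]

/-- **ROUTE B, generic**: the three vertical valuations from the input package. -/
theorem val3Data_of_inputs [Fact q.Prime] (hqM : ¬ q ∣ M')
    (hqi : Irreducible ((q : ℕ) : A₀))
    (Wq : ModelField K₁ (M' * q) ≃ₐ[K₁] ModelField K₁ (M' * q))
    (hWq : IsAtkinLehnerModel K₁ M' q Wq)
    (X₁ Y₁ : ModelField K₁ (M' * q)) (Z : ModelField K₁ (M' * q * q))
    (Pα Pβ : Polynomial (ModelField K₁ (M' * q)))
    (hI : ModelVal3Inputs K₁ A₀ M' q Wq X₁ Y₁ Z Pα Pβ)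
    (hnaX : ∀ b ∈ vZero K₁ A₀ (M' * q) Wq,
      X₁ - b ^ q ∉ (vZero K₁ A₀ (M' * q) Wq).nonunits)
    (hnaY : ∀ b ∈ vInf K₁ A₀ (M' * q), Y₁ - b ^ q ∉ (vInf K₁ A₀ (M' * q)).nonunits) :
    ∃ V₁₁ V₀₂ : ValuationSubring (ModelField K₁ (M' * q * q)),
      Val3Data (heckeAlphaBar K₁ (M' * q) q).toRingHom (heckeBetaBar K₁ (M' * q) q).toRingHom
        (vInf K₁ A₀ (M' * q)) (vZero K₁ A₀ (M' * q) Wq)
        (vInf K₁ A₀ (M' * q * q)) V₁₁ V₀₂ q Y₁ Z := by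
  have hq : q.Prime := Fact.out
  have hcop : Nat.Coprime M' q := ((Nat.Prime.coprime_iff_not_dvd hq).2 hqM).symm
  haveI : CharZero K₁ := algebraRat.charZero K₁
  haveI : CharZero (ModelField K₁ (M' * q)) :=
    charZero_of_injective_algebraMap (algebraMap K₁ (ModelField K₁ (M' * q))).injective
  letI : Algebra A₀ (ModelField K₁ (M' * q)) :=
    ((algebraMap K₁ (ModelField K₁ (M' * q))).comp (algebraMap A₀ K₁)).toAlgebra
  haveI : IsScalarTower A₀ K₁ (ModelField K₁ (M' * q)) :=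
    IsScalarTower.of_algebraMap_eq (fun _ => rfl)
  obtain ⟨V₂₀, V₁₁, V₀₂, hval⟩ :=
    val3Abs Fermat.Agent.H18.SS2.dkSplit Fermat.Agent.H46.SS2.dkInsep
      (ModelField K₁ (M' * q)) (ModelField K₁ (M' * q * q))
      (heckeAlphaBar K₁ (M' * q) q).toRingHom (heckeBetaBar K₁ (M' * q) q).toRingHom
      (vInf K₁ A₀ (M' * q)) (vZero K₁ A₀ (M' * q) Wq)
      (isPrincipalIdealRing_vInf hqi) (isPrincipalIdealRing_vZero Wq hqi) hI.ne_O
      q hq (routeB_dkUnif_vInf K₁ A₀ (M' * q) q hqi) (routeB_dkUnif_vZero K₁ A₀ (M' * q) q Wq hqi)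
      X₁ Y₁ Z hI.x1_O1 hI.x1_O2 hI.y1_O1 hI.y1_O2
      (Fermat.Agent.H1.SS2.modelDeg3_alpha' (M' * q) q hq (dvd_mul_left q M') K₁)
      (Fermat.Agent.H1.SS2.modelDeg3_beta' M' q hq hcop (Fermat.Agent.H79.SS2.al2Exists M' q) K₁)
      (modelVertIffU M' q hq hqM K₁ A₀ hqi Wq hWq) hI.rel
      Pα Pβ hI.monicα hI.degα hI.monicβ hI.degβ hI.coeffα hI.coeffβ hI.rootα hI.rootβ
      hI.redα1 hI.unitα hI.redα2 hnaX hI.redβ1 hI.unitβ hI.redβ2 hnaY
  have e : vInf K₁ A₀ (M' * q * q) = V₂₀ :=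
    hval.allβ₁ _ (routeB_comap_beta_vInf K₁ A₀ (M' * q) q)
  subst e
  exact ⟨V₁₁, V₀₂, hval⟩

/-- **ROUTE B, generic, with UNIT3 plugged in**: `X₁ = H₁ - H^q`, `Y₁ = H - H₁^q` for a
Hauptmodul `H` with expansion `h₀ = t⁻¹ + …` and `H₁ = Wq H` with expansion `h₀(t^q)`. -/
theorem val3Data_of_inputs_haupt [Fact q.Prime] (hqM : ¬ q ∣ M')
    (hqi : Irreducible ((q : ℕ) : A₀))
    (Wq : ModelField K₁ (M' * q) ≃ₐ[K₁] ModelField K₁ (M' * q))
    (hWq : IsAtkinLehnerModel K₁ M' q Wq)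
    (h₀ : LaurentSeries ℤ) (h1 : h₀.coeff (-1) = 1) (hlow : ∀ n : ℤ, n < -1 → h₀.coeff n = 0)
    (H Hq : ModelField K₁ (M' * q))
    (hH : (H : LaurentSeries K₁) = coeffMap (Int.castRingHom K₁) h₀)
    (hHq : (Hq : LaurentSeries K₁) = qExpand K₁ q (coeffMap (Int.castRingHom K₁) h₀))
    (hW1 : Wq H = Hq) (hW2 : Wq Hq = H)
    (Z : ModelField K₁ (M' * q * q)) (Pα Pβ : Polynomial (ModelField K₁ (M' * q)))
    (hI : ModelVal3Inputs K₁ A₀ M' q Wq (Hq - H ^ q) (H - Hq ^ q) Z Pα Pβ) :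
    ∃ V₁₁ V₀₂ : ValuationSubring (ModelField K₁ (M' * q * q)),
      Val3Data (heckeAlphaBar K₁ (M' * q) q).toRingHom (heckeBetaBar K₁ (M' * q) q).toRingHom
        (vInf K₁ A₀ (M' * q)) (vZero K₁ A₀ (M' * q) Wq)
        (vInf K₁ A₀ (M' * q * q)) V₁₁ V₀₂ q (H - Hq ^ q) Z := by
  have hq : q.Prime := Fact.out
  obtain ⟨hnaY, hnaX⟩ := modelUnit3 M' q h₀ hq hqM h1 hlow K₁ A₀ hqi Wq hWq H Hq hH hHq hW1 hW2
  exact val3Data_of_inputs K₁ A₀ M' q hqM hqi Wq hWq _ _ Z Pα Pβ hI hnaX hnaY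

end Fermat.Agent.H4.SS2
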